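import Mathlib.RingTheory.Valuation.ValuationSubring

/-!
# S36 / MOD3 — congruences modulo the maximal ideal of a valuation subring (helper756)

Mathlib-only.  `Cong V a b` : `a, b ∈ V` and `a - b ∈ 𝔪_V`.  Closed under `+`, `*`, `^`, inverses of
units; transport along `comap`.
-/

set_option autoImplicit false

namespace Fermat.Agent.S36.Mod3.H756

variable {F : Type*} [Field F]

/-- `a ≡ b` modulo the maximal ideal of `V` (both in `V`). -/
def Cong (V : ValuationSubring F) (a b : F) : Prop :=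
  a ∈ V ∧ b ∈ V ∧ a - b ∈ V.nonunits

namespace Cong

variable {V : ValuationSubring F} {a b c a' b' : F}

theorem refl (ha : a ∈ V) : Cong V a a :=
  ⟨ha, ha, by
    rw [sub_self, ValuationSubring.mem_nonunits_iff, map_zero]
    exact zero_lt_one⟩

theorem val_lt (h : Cong V a b) : V.valuation (a - b) < 1 :=
  (ValuationSubring.mem_nonunits_iff V).1 h.2.2

theorem of_val_lt (ha : a ∈ V) (hb : b ∈ V) (h : V.valuation (a - b) < 1) : Cong V a b :=
  ⟨ha, hb, (ValuationSubring.mem_nonunits_iff V).2 h⟩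

theorem symm (h : Cong V a b) : Cong V b a := by
  refine of_val_lt h.2.1 h.1 ?_
  rw [← neg_sub, Valuation.map_neg]
  exact h.val_lt

theorem trans (h₁ : Cong V a b) (h₂ : Cong V b c) : Cong V a c := by
  refine of_val_lt h₁.1 h₂.2.1 ?_
  have : a - c = (a - b) + (b - c) := by ring
  rw [this]
  exact lt_of_le_of_lt (Valuation.map_add _ _ _) (max_lt h₁.val_lt h₂.val_lt)

theorem val_mul_lt {x y : F} (hx : V.valuation x < 1) (hy : y ∈ V) :
    V.valuation (x * y) < 1 := by
  rw [map_mul]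
  calc V.valuation x * V.valuation y ≤ V.valuation x * 1 := by
        gcongr
        exact (V.valuation_le_one_iff _).2 hy
    _ = V.valuation x := mul_one _
    _ < 1 := hx

theorem mul (h₁ : Cong V a a') (h₂ : Cong V b b') : Cong V (a * b) (a' * b') := by
  refine of_val_lt (V.mul_mem _ _ h₁.1 h₂.1) (V.mul_mem _ _ h₁.2.1 h₂.2.1) ?_
  have : a * b - a' * b' = (a - a') * b + (b - b') * a' := by ring
  rw [this]
  exact lt_of_le_of_lt (Valuation.map_add _ _ _)
    (max_lt (val_mul_lt h₁.val_lt h₂.1) (val_mul_lt h₂.val_lt h₁.2.1))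

theorem pow (h : Cong V a a') (n : ℕ) : Cong V (a ^ n) (a' ^ n) := by
  induction n with
  | zero =>
    rw [pow_zero, pow_zero]
    exact refl V.one_mem
  | succ n ih =>
    rw [pow_succ, pow_succ]
    exact ih.mul h

/-- Inverses of congruent units are congruent. -/
theorem inv (h : Cong V a b) (ha : a⁻¹ ∈ V) (hb : b⁻¹ ∈ V) : Cong V a⁻¹ b⁻¹ := by
  refine of_val_lt ha hb ?_
  rcases eq_or_ne a 0 with rfl | ha0
  · -- then `b ∈ 𝔪_V` and `b⁻¹ ∈ V`: `b = 0`
    have hbv : V.valuation b < 1 := by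
      have := h.val_lt
      rwa [zero_sub, Valuation.map_neg] at this
    rcases eq_or_ne b 0 with rfl | hb0
    · simp
    · exfalso
      have h1 : V.valuation b⁻¹ ≤ 1 := (V.valuation_le_one_iff _).2 hb
      have h2 : V.valuation (b * b⁻¹) < 1 := val_mul_lt hbv hb
      rw [mul_inv_cancel₀ hb0, map_one] at h2
      exact lt_irrefl _ h2
  · rcases eq_or_ne b 0 with rfl | hb0
    · exfalso
      have hav : V.valuation a < 1 := by
        have := h.val_lt
        rwa [sub_zero] at this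
      have h2 : V.valuation (a * a⁻¹) < 1 := val_mul_lt hav ha
      rw [mul_inv_cancel₀ ha0, map_one] at h2
      exact lt_irrefl _ h2
    · have : a⁻¹ - b⁻¹ = (b - a) * (a⁻¹ * b⁻¹) := by
        field_simp
      rw [this]
      exact val_mul_lt h.symm.val_lt (V.mul_mem _ _ ha hb)

end Cong

section Comap

/-- Membership in the maximal ideal of a valuation subring, for a nonzero element. -/
theorem mem_nonunits_iff_of_ne_zero {K : Type*} [Field K] (A : ValuationSubring K) (x : K)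
    (hx0 : x ≠ 0) : x ∈ A.nonunits ↔ x ∈ A ∧ x⁻¹ ∉ A := by
  rw [ValuationSubring.mem_nonunits_iff]
  constructor
  · intro h
    refine ⟨(A.valuation_le_one_iff _).1 h.le, fun hinv => ?_⟩
    have h1 : A.valuation x⁻¹ ≤ 1 := (A.valuation_le_one_iff _).2 hinv
    have h2 : A.valuation (x * x⁻¹) < 1 := by
      rw [map_mul]
      calc A.valuation x * A.valuation x⁻¹ ≤ A.valuation x * 1 := by gcongr
        _ = A.valuation x := mul_one _
        _ < 1 := h
    rw [mul_inv_cancel₀ hx0, map_one] at h2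
    exact lt_irrefl _ h2
  · rintro ⟨hx, hinv⟩
    by_contra hcon
    rw [not_lt] at hcon
    have hone : A.valuation x = 1 := le_antisymm ((A.valuation_le_one_iff _).2 hx) hcon
    apply hinv
    rw [← A.valuation_le_one_iff, map_inv₀, hone, inv_one]

variable {F' : Type*} [Field F'] (γ : F' →+* F) (V : ValuationSubring F)

/-- The maximal ideal of `V.comap γ` is the preimage of the maximal ideal of `V`. -/
theorem mem_nonunits_comap_iff (g : F') :
    g ∈ (V.comap γ).nonunits ↔ γ g ∈ V.nonunits := by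
  rcases eq_or_ne g 0 with rfl | hg0
  · rw [map_zero]
    constructor <;> intro _ <;>
      · rw [ValuationSubring.mem_nonunits_iff, map_zero]
        exact zero_lt_one
  have hγ0 : γ g ≠ 0 := (map_ne_zero γ).2 hg0
  rw [mem_nonunits_iff_of_ne_zero (V.comap γ) g hg0, mem_nonunits_iff_of_ne_zero V (γ g) hγ0,
    ValuationSubring.mem_comap, ValuationSubring.mem_comap, map_inv₀]

theorem Cong.map {V' : ValuationSubring F'} (hV' : V.comap γ = V') {a b : F'}
    (h : Cong V' a b) : Cong V (γ a) (γ b) := by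
  subst hV'
  refine ⟨ValuationSubring.mem_comap.1 h.1, ValuationSubring.mem_comap.1 h.2.1, ?_⟩
  rw [← map_sub]
  exact (mem_nonunits_comap_iff γ V _).1 h.2.2

end Comap

end Fermat.Agent.S36.Mod3.H756

namespace Fermat.Agent.S36.Mod3.H756

section Compose

variable {F₀ F₁ F₂ : Type*} [Field F₀] [Field F₁] [Field F₂]

/-- Composition of two residue-degree-one steps. -/
theorem res_comp (γ₁ : F₀ →+* F₁) (γ₂ : F₁ →+* F₂) (V₀ : ValuationSubring F₀)
    (V₁ : ValuationSubring F₁) (V₂ : ValuationSubring F₂) (h₂ : V₂.comap γ₂ = V₁)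
    (hres₁ : ∀ g' ∈ V₁, ∃ g ∈ V₀, g' - γ₁ g ∈ V₁.nonunits)
    (hres₂ : ∀ f ∈ V₂, ∃ g' ∈ V₁, f - γ₂ g' ∈ V₂.nonunits) :
    ∀ f ∈ V₂, ∃ g ∈ V₀, V₂.valuation (f - γ₂ (γ₁ g)) < 1 := by
  intro f hf
  obtain ⟨g', hg', h1⟩ := hres₂ f hf
  obtain ⟨g, hg, h2⟩ := hres₁ g' hg'
  refine ⟨g, hg, ?_⟩
  have h3 : γ₂ (g' - γ₁ g) ∈ V₂.nonunits := by
    rw [← mem_nonunits_comap_iff, h₂]
    exact h2
  have h4 : f - γ₂ (γ₁ g) = (f - γ₂ g') + γ₂ (g' - γ₁ g) := by
    rw [map_sub]
    ring
  rw [h4]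
  exact lt_of_le_of_lt (Valuation.map_add _ _ _)
    (max_lt ((ValuationSubring.mem_nonunits_iff V₂).1 h1)
      ((ValuationSubring.mem_nonunits_iff V₂).1 h3))

/-- Composition of two inclusions of valuation rings. -/
theorem map_mem_comp (γ₁ : F₀ →+* F₁) (γ₂ : F₁ →+* F₂) (V₀ : ValuationSubring F₀)
    (V₁ : ValuationSubring F₁) (V₂ : ValuationSubring F₂) (h₂ : V₂.comap γ₂ = V₁)
    (h₁ : ∀ g ∈ V₀, γ₁ g ∈ V₁) : ∀ g ∈ V₀, γ₂ (γ₁ g) ∈ V₂ := by
  intro g hg
  have := h₁ g hg
  rw [← h₂] at this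
  exact ValuationSubring.mem_comap.1 this

end Compose

end Fermat.Agent.S36.Mod3.H756
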