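import Fermat.Agent.A2.Mod.H142.S2Core

/-!
# S36 / MOD3, leaf NORMAL — abstract bridge (helper756)

Mathlib + `A2.Mod.H142.S2Core` (helper142, on main).

* `eval₂_eq_fin_sum` : a monic polynomial evaluated at `x` in `Fin`-indexed form;
* `mem_of_aeval_mem_nonunits` : `p` monic over `B ⊆ V`, `p(f) ∈ 𝔪_V` ⟹ `f ∈ V`;
* `normalAlong_of_normalIn` : `H142.NormalIn V B` ⟹ `S36.Eng.NormalAlong B V` (stated UNFOLDED:
  `∀ f p, p.Monic → aeval f p ∈ V.nonunits → ∃ b : B, f - b ∈ V.nonunits`);
* `normalIn_of_normalAlong` : the converse.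
-/

set_option autoImplicit false

noncomputable section

open Polynomial

namespace Fermat.Agent.S36.Mod3.H756

open Fermat.Agent.A2.Mod.H142

section Fin

variable {A K : Type*} [CommRing A] [CommRing K]

/-- A monic polynomial evaluated at `x`, in `Fin`-indexed form. -/
theorem eval₂_eq_fin_sum (ρ : A →+* K) (x : K) {p : Polynomial A} (hp : p.Monic) :
    eval₂ ρ x p = x ^ p.natDegree + ∑ i : Fin p.natDegree, ρ (p.coeff i) * x ^ (i : ℕ) := by
  have h1 := hp.as_sum
  conv_lhs => rw [h1]
  rw [eval₂_add, eval₂_pow, eval₂_X, eval₂_finsetSum,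
    ← Fin.sum_univ_eq_sum_range (fun i => eval₂ ρ x (C (p.coeff i) * X ^ i)) p.natDegree]
  simp

end Fin

section Bridge

variable {R F : Type*} [CommRing R] [Field F] [Algebra R F]

/-- An element which is a root modulo `𝔪_V` of a monic polynomial over `B ⊆ V` lies in `V`. -/
theorem mem_of_aeval_mem_nonunits (V : ValuationSubring F) (B : Subalgebra R F)
    (hBV : ∀ b ∈ B, b ∈ V) (f : F) (p : Polynomial B) (hp : p.Monic)
    (hpf : Polynomial.aeval f p ∈ V.nonunits) : f ∈ V := by
  classical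
  have hcV : Polynomial.aeval f p ∈ V := by
    rw [← ValuationSubring.valuation_le_one_iff]
    exact ((ValuationSubring.mem_nonunits_iff V).1 hpf).le
  let ι : B →+* V :=
    { toFun := fun b => ⟨b.1, hBV b.1 b.2⟩
      map_one' := rfl
      map_mul' := fun _ _ => rfl
      map_zero' := rfl
      map_add' := fun _ _ => rfl }
  have hι : (algebraMap V F).comp ι = algebraMap B F := by
    ext b
    rfl
  have hdeg : 0 < p.natDegree := by
    by_contra h0
    have h1 : p.natDegree = 0 := by omega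
    have h2 : p = 1 := hp.natDegree_eq_zero.1 h1
    rw [h2, map_one] at hpf
    have := (ValuationSubring.mem_nonunits_iff V).1 hpf
    rw [map_one] at this
    exact lt_irrefl _ this
  have hpm : (p.map ι).Monic := hp.map ι
  have hdeg' : (C (⟨Polynomial.aeval f p, hcV⟩ : V)).degree < (p.map ι).degree := by
    refine lt_of_le_of_lt Polynomial.degree_C_le ?_
    rw [Polynomial.degree_eq_natDegree hpm.ne_zero, hp.natDegree_map ι]
    exact_mod_cast hdeg
  have hmonic : (p.map ι - C (⟨Polynomial.aeval f p, hcV⟩ : V)).Monic :=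
    hpm.sub_of_left hdeg'
  have hint : IsIntegral V f := by
    refine ⟨_, hmonic, ?_⟩
    rw [eval₂_sub, eval₂_C, eval₂_map, hι]
    show Polynomial.eval₂ (algebraMap B F) f p - Polynomial.aeval f p = 0
    rw [Polynomial.aeval_def, sub_self]
  obtain ⟨z, hz⟩ := (IsIntegrallyClosed.isIntegral_iff (R := V) (K := F)).mp hint
  rw [← hz]
  exact z.2

/-- **Bridge.**  `H142.NormalIn` implies `S36.Eng.NormalAlong` (unfolded). -/
theorem normalAlong_of_normalIn (V : ValuationSubring F) (B : Subalgebra R F)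
    (hBV : ∀ b ∈ B, b ∈ V) (h : NormalIn V (B : Set F)) :
    ∀ (f : F) (p : Polynomial B), p.Monic → Polynomial.aeval f p ∈ V.nonunits →
      ∃ b : B, f - (b : F) ∈ V.nonunits := by
  intro f p hp hpf
  have hfV : f ∈ V := mem_of_aeval_mem_nonunits V B hBV f p hp hpf
  have hrel : V.valuation (f ^ p.natDegree +
      ∑ i : Fin p.natDegree, ((p.coeff i : B) : F) * f ^ (i : ℕ)) < 1 := by
    have h1 := eval₂_eq_fin_sum (algebraMap B F) f hp
    rw [← Polynomial.aeval_def] at h1
    have h2 := (ValuationSubring.mem_nonunits_iff V).1 hpf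
    rw [h1] at h2
    exact h2
  obtain ⟨b, hb, hfb⟩ := h f hfV
    ⟨p.natDegree, fun i => ((p.coeff i : B) : F), fun i => (p.coeff i).2, hrel⟩
  exact ⟨⟨b, hb⟩, (ValuationSubring.mem_nonunits_iff V).2 hfb⟩

/-- The converse of the bridge. -/
theorem normalIn_of_normalAlong (V : ValuationSubring F) (B : Subalgebra R F)
    (h : ∀ (f : F) (p : Polynomial B), p.Monic → Polynomial.aeval f p ∈ V.nonunits →
      ∃ b : B, f - (b : F) ∈ V.nonunits) :
    NormalIn V (B : Set F) := by
  classical
  intro f _ ⟨n, c, hc, hrel⟩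
  let p : Polynomial B := X ^ n + ∑ i : Fin n, C (⟨c i, hc i⟩ : B) * X ^ (i : ℕ)
  have hp : p.Monic :=
    Polynomial.monic_X_pow_add (Polynomial.degree_sum_fin_lt fun i => (⟨c i, hc i⟩ : B))
  have hpf : Polynomial.aeval f p = f ^ n + ∑ i : Fin n, c i * f ^ (i : ℕ) := by
    simp only [p, map_add, map_pow, Polynomial.aeval_X, map_sum, map_mul, Polynomial.aeval_C]
    rfl
  obtain ⟨b, hb⟩ := h f p hp (by
    rw [hpf]
    exact (ValuationSubring.mem_nonunits_iff V).2 hrel)
  exact ⟨b.1, b.2, (ValuationSubring.mem_nonunits_iff V).1 hb⟩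

end Bridge

end Fermat.Agent.S36.Mod3.H756

end
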