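import Fermat.Agent.A2.Mod.H142.S2Side
import Fermat.Agent.S36.Mod3.H756.NormalAbs
import Fermat.Agent.S18.H138.Charts

/-!
# S36 / MOD3, leaf NORMAL — one component, any level (helper756)

`normalIn_side3` : for a valuation subring `V'` of `F_{N,E}` (ANY level `N`; `w ∈ 𝔪_{V'}`, `w` need
not be a uniformiser of `V'`) and an `E`-embedding `γ : F_{M,E} → F_{N,E}` such that

* `γ V∞_M ⊆ V'`, residue degree one (`V' = γ V∞_M + 𝔪_{V'}`),
* `y ≡ γ (y_M ^ k) mod 𝔪_{V'}`, `γ y_M ∈ chartAlg y`,
* good reduction at level `M` in the chart of `y_M`,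

the image of the chart `chartAlg y` in the residue field of `V'` is integrally closed
(`H142.NormalIn`), hence `S36.Eng.NormalAlong (chart R {y}) V'` (`normalAlong_side3`, unfolded).

This is helper142's `normal_side` (level `M q`, `V'` unramified) with the level and the
ramification freed; the abstract core is `H142.normalIn_transfer` + `isIntegralElem_of_coord`.
-/

set_option autoImplicit false
set_option synthInstance.maxHeartbeats 400000
set_option maxHeartbeats 1600000
set_option linter.unusedSectionVars false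
set_option linter.style.haveILetI false

noncomputable section

namespace Fermat.Agent.S36.Mod3.H756

open ModularCurve HahnSeries Polynomial
open Fermat.Agent.A2.Mod Fermat.Agent.A2.Mod.H142

variable (P : ValuationSubring Qb) (E : IntermediateField ℚ Qb)
variable (M N : ℕ) [NeZero M] (w : RE P E)

/-- **One component is normal** (`NormalIn` form), any level, any ramification. -/
theorem normalIn_side3 (hdvr : IsDiscreteValuationRing (RE P E)) (hw : Irreducible w)
    (VM : ValuationSubring (FE E M)) (hVM : IsVinf P E M VM)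
    (V' : ValuationSubring (FE E N))
    (hRV' : ∀ r : RE P E, algebraMap (RE P E) (FE E N) r ∈ V')
    (hwV' : V'.valuation (cE P E N w) < 1)
    (γ : FE E M →ₐ[E] FE E N)
    (hγV : ∀ g ∈ VM, γ g ∈ V')
    (hres : ∀ f ∈ V', ∃ g ∈ VM, V'.valuation (f - γ g) < 1)
    (yM : FE E M) (y : FE E N) (k : ℕ)
    (hyM : yM ∈ VM) (hy : y ∈ V')
    (hcong : V'.valuation (y - γ (yM ^ k)) < 1)
    (hγy : γ yM ∈ chartAlg P E N y)
    (hgood : GoodRedAt P E M w VM yM) :
    NormalIn V' ((chartAlg P E N y : Subalgebra (RE P E) (FE E N)) : Set (FE E N)) := by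
  have hL2M := Fermat.Agent.A2.Mod.H553.vinfBasic P E w M (NeZero.ne M) hdvr hw VM hVM
  have hUM : Fermat.Agent.A2.H48.IsUnif VM (cE P E M w) := hL2M.1
  have hRVM : ∀ r : RE P E, algebraMap (RE P E) (FE E M) r ∈ VM := fun r =>
    (hL2M.2.1 (r : E)).mpr r.2
  have hγR : ∀ r : RE P E, (γ : FE E M →+* FE E N) (algebraMap (RE P E) (FE E M) r) =
      algebraMap (RE P E) (FE E N) r := fun r => γ.commutes (r : E)
  have hγc : γ (cE P E M w) = cE P E N w := γ.commutes (w : E)
  -- the charts lie in the valuation rings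
  have hB₀ : ∀ b ∈ chartAlg P E M yM, b ∈ VM := fun b hb =>
    mem_valuationSubring_of_isIntegral_adjoin VM hRVM hyM ((mem_chartAlg P E M).1 hb)
  have hB : ∀ b ∈ chartAlg P E N y, b ∈ V' := fun b hb =>
    mem_valuationSubring_of_isIntegral_adjoin V' hRV' hy ((mem_chartAlg P E N).1 hb)
  have hγB : ∀ b ∈ chartAlg P E M yM, (γ : FE E M →+* FE E N) b ∈ chartAlg P E N y :=
    fun b hb => (mem_chartAlg P E N).2
      (isIntegral_adjoin_map (γ : FE E M →+* FE E N) hγR
        ((mem_chartAlg P E N).1 hγy) ((mem_chartAlg P E M).1 hb))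
  have hγp : ∀ g : FE E M, VM.valuation g < 1 →
      V'.valuation ((γ : FE E M →+* FE E N) g) < 1 := by
    intro g hg
    rw [← inW_iff hUM] at hg
    unfold InW at hg
    have h1 := hγV _ hg
    rw [map_mul, map_inv₀, hγc] at h1
    have hc0 : cE P E N w ≠ 0 := by
      rw [← hγc]
      exact (map_ne_zero γ).2 hUM.ne_zero
    have h2 : (γ : FE E M →+* FE E N) g = γ g * (cE P E N w)⁻¹ * cE P E N w := by
      rw [mul_assoc, inv_mul_cancel₀ hc0, mul_one]
      rfl
    rw [h2, map_mul]
    calc V'.valuation (γ g * (cE P E N w)⁻¹) * V'.valuation (cE P E N w)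
        ≤ 1 * V'.valuation (cE P E N w) := by
          gcongr
          exact (V'.valuation_le_one_iff _).2 h1
      _ = V'.valuation (cE P E N w) := one_mul _
      _ < 1 := hwV'
  have hnorm₀ : NormalIn VM ((chartAlg P E M yM : Subalgebra (RE P E) (FE E M)) : Set (FE E M)) := by
    intro f hf ⟨n, c, hc, hrel⟩
    obtain ⟨b, hb, hfb⟩ := hgood.normal f hf
      ⟨n, c, fun i => (mem_chart_iff P E M yM (c i)).2 (hc i), (inW_iff hUM _).2 hrel⟩
    exact ⟨b, (mem_chart_iff P E M yM b).1 hb, (inW_iff hUM _).1 hfb⟩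
  have hint := isIntegralElem_of_coord (γ : FE E M →+* FE E N) hγR V'
    (chartAlg P E M yM) (chartAlg P E N y) hB hγB y (self_mem_chartAlg P E N y)
    (yM ^ k) (pow_mem (self_mem_chartAlg P E M yM) _) hcong
    (fun b hb => (mem_chartAlg P E N).1 hb)
  exact normalIn_transfer (γ : FE E M →+* FE E N) VM V' hγV hγp
    (chartAlg P E M yM) (chartAlg P E N y) hB₀ hB hγB hres hint hnorm₀

/-- `A2.Mod.chartAlg` and `S18.H138.chart` at a single coordinate are the same subalgebra. -/
theorem chartAlg_eq_chart (y : FE E N) :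
    chartAlg P E N y = Fermat.Agent.S18.H138.chart (RE P E) ({y} : Set (FE E N)) := rfl

/-- **One component is normal** (`S36.Eng.NormalAlong` form, unfolded). -/
theorem normalAlong_side3 (hdvr : IsDiscreteValuationRing (RE P E)) (hw : Irreducible w)
    (VM : ValuationSubring (FE E M)) (hVM : IsVinf P E M VM)
    (V' : ValuationSubring (FE E N))
    (hRV' : ∀ r : RE P E, algebraMap (RE P E) (FE E N) r ∈ V')
    (hwV' : V'.valuation (cE P E N w) < 1)
    (γ : FE E M →ₐ[E] FE E N)
    (hγV : ∀ g ∈ VM, γ g ∈ V')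
    (hres : ∀ f ∈ V', ∃ g ∈ VM, V'.valuation (f - γ g) < 1)
    (yM : FE E M) (y : FE E N) (k : ℕ)
    (hyM : yM ∈ VM) (hy : y ∈ V')
    (hcong : V'.valuation (y - γ (yM ^ k)) < 1)
    (hγy : γ yM ∈ Fermat.Agent.S18.H138.chart (RE P E) ({y} : Set (FE E N)))
    (hgood : GoodRedAt P E M w VM yM) :
    ∀ (f : FE E N) (p : Polynomial (Fermat.Agent.S18.H138.chart (RE P E) ({y} : Set (FE E N)))),
      p.Monic → Polynomial.aeval f p ∈ V'.nonunits →
      ∃ b : Fermat.Agent.S18.H138.chart (RE P E) ({y} : Set (FE E N)),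
        f - (b : FE E N) ∈ V'.nonunits := by
  have hB : ∀ b ∈ Fermat.Agent.S18.H138.chart (RE P E) ({y} : Set (FE E N)), b ∈ V' :=
    fun b hb => mem_valuationSubring_of_isIntegral_adjoin V' hRV' hy hb
  exact normalAlong_of_normalIn V' _ hB
    (normalIn_side3 P E M N w hdvr hw VM hVM V' hRV' hwV' γ hγV hres yM y k hyM hy hcong hγy
      hgood)

end Fermat.Agent.S36.Mod3.H756

end
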