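import Fermat.Agent.S36.Mod3.SpecVT
import Fermat.Agent.S36.Mod3.H189.ChartLeaf
import Fermat.Agent.S36.Mod3.H756.NormalSide
import Fermat.Agent.S36.Mod3.H756.CongAbs
import Fermat.Agent.A2.Mod.H142.S2Final
import Fermat.Agent.A2.Mod.H216.GoodRedAll

/-!
# S36 / MOD3, leaf NORMAL (helper756)

`leafNormal_of : LeafVT → LeafVal → LeafSheet → LeafTable → LeafNormal`

The six fields `NormalAlong (chart R {x^{±1}}) V_i` of `Eng.TripleCtx` at the concrete objects of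
`Mod3/Spec.lean`, DIRECTLY from good reduction at level `M` (`A2.Mod.H216.goodRedHyp_of_dvr`, on
main) through `γ₁ = γ₂ = α ∘ α'` and `γ₃ = β ∘ β' : F_M → F_{M q²}`:

* residue degree one of `V_i` over `V∞(M)`: `LeafVT.res_*` (level `M q² / M q`) + L11
  (`H378.resInf`, level `M q / M`; on `V₀` with L5, L7 as in helper142's `normal_zero`);
* `x ≡ γ_i (j ^ k_i) mod 𝔪_{V_i}`, `k₁ = k₃ = 1 + q + q²`, `k₂ = q + 2`: `LeafVT.kron_i`;
* `γ_i j^{±1} ∈ chart R {x^{±1}}`: helper189's `Chart3.lean` (on main);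
* the abstract core is helper142's `normalIn_transfer` (on main), via `normalAlong_side3`.

The chart at infinity needs no extra argument.
-/

set_option autoImplicit false
set_option synthInstance.maxHeartbeats 400000
set_option maxHeartbeats 1600000
set_option linter.unusedSectionVars false
set_option linter.style.haveILetI false

noncomputable section

namespace Fermat.Agent.S36.Mod3.H756

open ModularCurve
open Fermat.Agent Fermat.Agent.A2.Mod Fermat.Agent.S36.Eng Fermat.Agent.S36.Mod3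
open Fermat.Agent.S18.H138 (chart)

section Setup

variable {P : ValuationSubring A2.Qb} {E : IntermediateField ℚ A2.Qb} {M q : ℕ}
  [NeZero M] [NeZero q] [NeZero (M * q)] {w : A2.RE P E}

theorem setting_of_std (hS : Std P E M q w) : Setting P E M q w :=
  ⟨hS.q_prime, hS.q_not_dvd, NeZero.ne M, hS.lies_over, hS.unram.1.dvr, hS.unif⟩

/-- `γ₁ = α ∘ α' : F_M → F_{M q²}` (the inclusion). -/
def gammaA (E : IntermediateField ℚ A2.Qb) (M q : ℕ) [NeZero M] [NeZero q] [NeZero (M * q)] :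
    FE E M →ₐ[E] FE E (M * q * q) :=
  (αE E (M * q) q).comp (αE E M q)

/-- `γ₃ = β ∘ β' : F_M → F_{M q²}` (`t ↦ t ^ (q²)`). -/
def gammaB (E : IntermediateField ℚ A2.Qb) (M q : ℕ) [NeZero M] [NeZero q] [NeZero (M * q)] :
    FE E M →ₐ[E] FE E (M * q * q) :=
  (βE E (M * q) q).comp (βE E M q)

theorem gammaA_apply (g : FE E M) : gammaA E M q g = αE E (M * q) q (αE E M q g) := rfl

theorem gammaB_apply (g : FE E M) : gammaB E M q g = βE E (M * q) q (βE E M q g) := rfl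

theorem gammaA_j : gammaA E M q (jE E M 1 (one_dvd _)) = j1 E M q := by
  rw [gammaA_apply, H751.alpha_jE E M q 1 (one_dvd M), H751.alpha_jE E (M * q) q 1 (one_dvd _)]
  rfl

theorem gammaB_j : gammaB E M q (jE E M 1 (one_dvd _)) = jqq E M q := by
  rw [gammaB_apply, H751.beta_jE E M q 1 (one_dvd M)]
  have h1 : jE E (M * q) (q * 1) (by rw [mul_comm M q]; exact mul_dvd_mul_left q (one_dvd M)) =
      jE E (M * q) q (dvd_mul_left q M) := H751.jE_congr E (M * q) (mul_one q) _ _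
  rw [h1, H751.beta_jE E (M * q) q q (dvd_mul_left q M)]
  rfl

end Setup

section Levels

variable (P : ValuationSubring A2.Qb) (E : IntermediateField ℚ A2.Qb) (M q : ℕ)
  [NeZero M] [NeZero q] [NeZero (M * q)] (w : A2.RE P E)

/-- `w ∈ 𝔪_{V∞}` (any level). -/
theorem cE_mem_nonunits_vinf (hdvr : IsDiscreteValuationRing (A2.RE P E)) (hw : Irreducible w)
    (N : ℕ) (hN : N ≠ 0) (V : ValuationSubring (FE E N)) (hV : IsVinf P E N V) :
    cE P E N w ∈ V.nonunits := by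
  have hU := (H553.vinfBasic P E w N hN hdvr hw V hV).1
  exact (mem_nonunits_iff_of_ne_zero V _ hU.ne_zero).2 ⟨hU.mem, hU.inv_not_mem⟩

/-- Residue degree one of `V∞(M q)` over `V∞(M)` along `α'` (L11, `nonunits` form). -/
theorem res_level_inf (hS : Std P E M q w) (VM : ValuationSubring (FE E M))
    (V₁' : ValuationSubring (FE E (M * q))) (hVM : IsVinf P E M VM)
    (hV₁' : IsVinf P E (M * q) V₁') :
    ∀ g' ∈ V₁', ∃ g ∈ VM, g' - (αE E M q : FE E M →+* FE E (M * q)) g ∈ V₁'.nonunits := by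
  intro g' hg'
  have hSet := setting_of_std hS
  obtain ⟨g, hg, h⟩ := H378.resInf P E M q w hSet VM V₁' hVM hV₁' g' hg'
  have hL2 := H553.vinfBasic P E w (M * q) (NeZero.ne _) hSet.dvr hSet.unif V₁' hV₁'
  exact ⟨g, hg, (ValuationSubring.mem_nonunits_iff _).2 ((H142.inW_iff hL2.1 _).1 h)⟩

/-- `β'` maps `V∞(M)` into `V₀(M q) = V∞(M q) ∘ W'` (L5 + L7). -/
theorem beta_mem_zero (hS : Std P E M q w) (VM : ValuationSubring (FE E M))
    (V₁' : ValuationSubring (FE E (M * q))) (hVM : IsVinf P E M VM)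
    (hV₁' : IsVinf P E (M * q) V₁') (W' : FE E (M * q) ≃ₐ[E] FE E (M * q))
    (hW' : IsFricke E (M * q) W') :
    ∀ g ∈ VM, (βE E M q : FE E M →+* FE E (M * q)) g ∈
      V₁'.comap (W' : FE E (M * q) →+* FE E (M * q)) := by
  intro g hg
  have hSet := setting_of_std hS
  have hWM := H751.isFricke_frickeE E M
  have hL5 := H751.frickeCompat E M q (H751.frickeE E M) W' hWM hW'
  rw [ValuationSubring.mem_comap]
  show W' (βE E M q g) ∈ V₁'
  rw [(hL5 g).2]
  exact H142.alpha_mem P E M q hVM hV₁'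
    (H900.frickeStable P E M q w hSet VM (H751.frickeE E M) hVM hWM g hg)

/-- Residue degree one of `V₀(M q)` over `V∞(M)` along `β'` (L11 + L5 + L7). -/
theorem res_level_zero (hS : Std P E M q w) (VM : ValuationSubring (FE E M))
    (V₁' : ValuationSubring (FE E (M * q))) (hVM : IsVinf P E M VM)
    (hV₁' : IsVinf P E (M * q) V₁') (W' : FE E (M * q) ≃ₐ[E] FE E (M * q))
    (hW' : IsFricke E (M * q) W') :
    ∀ g' ∈ V₁'.comap (W' : FE E (M * q) →+* FE E (M * q)), ∃ g ∈ VM,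
      g' - (βE E M q : FE E M →+* FE E (M * q)) g ∈
        (V₁'.comap (W' : FE E (M * q) →+* FE E (M * q))).nonunits := by
  intro g' hg'
  have hSet := setting_of_std hS
  have hWM := H751.isFricke_frickeE E M
  have hL5 := H751.frickeCompat E M q (H751.frickeE E M) W' hWM hW'
  rw [ValuationSubring.mem_comap] at hg'
  obtain ⟨g₀, hg₀, h⟩ := res_level_inf P E M q w hS VM V₁' hVM hV₁' _ hg'
  refine ⟨H751.frickeE E M g₀,
    H900.frickeStable P E M q w hSet VM (H751.frickeE E M) hVM hWM g₀ hg₀, ?_⟩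
  rw [mem_nonunits_comap_iff]
  have h1 : (W' : FE E (M * q) →+* FE E (M * q))
      (g' - (βE E M q : FE E M →+* FE E (M * q)) (H751.frickeE E M g₀)) =
      (W' : FE E (M * q) →+* FE E (M * q)) g' - (αE E M q : FE E M →+* FE E (M * q)) g₀ := by
    rw [map_sub]
    congr 1
    show W' (βE E M q (H751.frickeE E M g₀)) = αE E M q g₀
    rw [(hL5 _).2, hWM.2]
  rw [h1]
  exact h

end Levels

section Main

/-- **NORMAL (leaf)** from the valuation-level hub `LeafVT` and the leaves `LeafVal`, `LeafSheet`,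
`LeafTable`. -/
theorem leafNormal_of (hVT : LeafVT) (hVal : LeafVal) (hSh : LeafSheet) (hTab : LeafTable) :
    LeafNormal := by
  intro P E M q _ _ _ w hS V₁' V₂' V₁ V₂ V₃ W' W hO
  have vt := hVT P E M q w hS V₁' V₂' V₁ V₂ V₃ W' W hO
  have val := hVal P E M q w hS V₁' V₂' V₁ V₂ V₃ W' W hO
  have sh := hSh P E M q w hS V₁' V₂' V₁ V₂ V₃ W' W hO
  have tab := hTab P E M q w hS V₁' V₂' V₁ V₂ V₃ W' W hO
  have hSet := setting_of_std hS
  have hq := hS.q_prime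
  have hdvr := hSet.dvr
  have hw := hS.unif
  -- level `M`
  obtain ⟨VM, hVM⟩ := H553.vinfExists P E M (NeZero.ne M) hdvr
  have hgood := H216.goodRedHyp_of_dvr P E M hq hS.q_not_dvd hS.neat.hasAux.1 hS.neat.hasAux.2
    hS.lies_over hdvr w VM hw hVM
  have hL2M := H553.vinfBasic P E w M (NeZero.ne M) hdvr hw VM hVM
  have hjM : jE E M 1 (one_dvd _) ∈ VM := (hL2M.2.2 1 (one_dvd M)).1
  have hjMi : (jE E M 1 (one_dvd _))⁻¹ ∈ VM := (hL2M.2.2 1 (one_dvd M)).2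
  -- the three `j`'s are units of the three valuation rings
  have hm : ∀ V : ValuationSubring (FE E (M * q * q)), x3E E M q ∈ V →
      j1 E M q ∈ V ∧ jq E M q ∈ V ∧ jqq E M q ∈ V := fun V hV =>
    H189.mem_of_x3_mem E M q hq V hV
  have hi : ∀ V : ValuationSubring (FE E (M * q * q)), (x3E E M q)⁻¹ ∈ V →
      (j1 E M q)⁻¹ ∈ V ∧ (jq E M q)⁻¹ ∈ V ∧ (jqq E M q)⁻¹ ∈ V := fun V hV =>
    H189.inv_mem_of_x3_inv_mem E M q hq V hV
  have hm₁ := hm V₁ val.x_unit₁.2.1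
  have hm₂ := hm V₂ val.x_unit₂.2.1
  have hm₃ := hm V₃ val.x_unit₃.2.1
  have hi₁ := hi V₁ val.x_unit₁.2.2
  have hi₂ := hi V₂ val.x_unit₂.2.2
  have hi₃ := hi V₃ val.x_unit₃.2.2
  -- `w` lies in the three maximal ideals
  have hw₁ : V₁.valuation (cE P E (M * q * q) w) < 1 :=
    (ValuationSubring.mem_nonunits_iff V₁).1 val.unif₁.2.1
  have hw₃ : V₃.valuation (cE P E (M * q * q) w) < 1 :=
    (ValuationSubring.mem_nonunits_iff V₃).1 val.unif₃.2.1
  have hw₂ : V₂.valuation (cE P E (M * q * q) w) < 1 := by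
    have h1 := cE_mem_nonunits_vinf P E w hdvr hw (M * q) (NeZero.ne _) V₁' hO.vinf'
    rw [← hO.mid, mem_nonunits_comap_iff] at h1
    have h2 : (αE E (M * q) q : FE E (M * q) →+* FE E (M * q * q)) (cE P E (M * q) w) =
        cE P E (M * q * q) w := (αE E (M * q) q).commutes (w : E)
    rw [h2] at h1
    exact (ValuationSubring.mem_nonunits_iff V₂).1 h1
  -- `γ V∞(M) ⊆ V_i`
  have hα' : ∀ g ∈ VM, (αE E M q : FE E M →+* FE E (M * q)) g ∈ V₁' := fun g hg =>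
    H142.alpha_mem P E M q hVM hO.vinf' hg
  have hβ' : ∀ g ∈ VM, (βE E M q : FE E M →+* FE E (M * q)) g ∈ V₂' := by
    rw [hO.vzero']
    exact beta_mem_zero P E M q w hS VM V₁' hVM hO.vinf' W' hO.fricke'
  have hγV₁ : ∀ g ∈ VM, gammaA E M q g ∈ V₁ :=
    map_mem_comp (αE E M q : FE E M →+* FE E (M * q))
      (αE E (M * q) q : FE E (M * q) →+* FE E (M * q * q)) VM V₁' V₁ tab.comap_α₁ hα'
  have hγV₂ : ∀ g ∈ VM, gammaA E M q g ∈ V₂ :=
    map_mem_comp (αE E M q : FE E M →+* FE E (M * q))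
      (αE E (M * q) q : FE E (M * q) →+* FE E (M * q * q)) VM V₁' V₂ tab.comap_α₂ hα'
  have hγV₃ : ∀ g ∈ VM, gammaB E M q g ∈ V₃ :=
    map_mem_comp (βE E M q : FE E M →+* FE E (M * q))
      (βE E (M * q) q : FE E (M * q) →+* FE E (M * q * q)) VM V₂' V₃ tab.comap_β₃ hβ'
  -- residue degree one over level `M`
  have hr' := res_level_inf P E M q w hS VM V₁' hVM hO.vinf'
  have hr₀' : ∀ g' ∈ V₂', ∃ g ∈ VM,
      g' - (βE E M q : FE E M →+* FE E (M * q)) g ∈ V₂'.nonunits := by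
    rw [hO.vzero']
    exact res_level_zero P E M q w hS VM V₁' hVM hO.vinf' W' hO.fricke'
  have hres₁ : ∀ f ∈ V₁, ∃ g ∈ VM, V₁.valuation (f - gammaA E M q g) < 1 :=
    res_comp (αE E M q : FE E M →+* FE E (M * q))
      (αE E (M * q) q : FE E (M * q) →+* FE E (M * q * q)) VM V₁' V₁ tab.comap_α₁ hr'
      vt.res_α₁
  have hres₂ : ∀ f ∈ V₂, ∃ g ∈ VM, V₂.valuation (f - gammaA E M q g) < 1 :=
    res_comp (αE E M q : FE E M →+* FE E (M * q))
      (αE E (M * q) q : FE E (M * q) →+* FE E (M * q * q)) VM V₁' V₂ tab.comap_α₂ hr'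
      vt.res_α₂
  have hres₃ : ∀ f ∈ V₃, ∃ g ∈ VM, V₃.valuation (f - gammaB E M q g) < 1 :=
    res_comp (βE E M q : FE E M →+* FE E (M * q))
      (βE E (M * q) q : FE E (M * q) →+* FE E (M * q * q)) VM V₂' V₃ tab.comap_β₃ hr₀'
      vt.res_β₃
  -- the coordinate congruences
  have hc₁ : Cong V₁ (x3E E M q) (j1 E M q ^ (1 + q + q * q)) := by
    have h1 : Cong V₁ (jq E M q) (j1 E M q ^ q) :=
      ⟨hm₁.2.1, V₁.pow_mem hm₁.1 q, vt.kron₁.1⟩
    have h2 : Cong V₁ (jqq E M q) (jq E M q ^ q) :=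
      ⟨hm₁.2.2, V₁.pow_mem hm₁.2.1 q, vt.kron₁.2⟩
    have h3 : Cong V₁ (jqq E M q) ((j1 E M q ^ q) ^ q) := h2.trans (h1.pow q)
    have h4 : Cong V₁ (x3E E M q) (j1 E M q * j1 E M q ^ q * (j1 E M q ^ q) ^ q) :=
      ((Cong.refl hm₁.1).mul h1).mul h3
    have h5 : j1 E M q * j1 E M q ^ q * (j1 E M q ^ q) ^ q = j1 E M q ^ (1 + q + q * q) := by
      ring
    rwa [h5] at h4
  have hc₂ : Cong V₂ (x3E E M q) (j1 E M q ^ (q + 2)) := by
    have h1 : Cong V₂ (jq E M q) (j1 E M q ^ q) :=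
      ⟨hm₂.2.1, V₂.pow_mem hm₂.1 q, vt.kron₂.1⟩
    have h2 : Cong V₂ (jqq E M q) (j1 E M q) := ⟨hm₂.2.2, hm₂.1, vt.kron₂.2⟩
    have h4 : Cong V₂ (x3E E M q) (j1 E M q * j1 E M q ^ q * j1 E M q) :=
      ((Cong.refl hm₂.1).mul h1).mul h2
    have h5 : j1 E M q * j1 E M q ^ q * j1 E M q = j1 E M q ^ (q + 2) := by ring
    rwa [h5] at h4
  have hc₃ : Cong V₃ (x3E E M q) (jqq E M q ^ (1 + q + q * q)) := by
    have h1 : Cong V₃ (jq E M q) (jqq E M q ^ q) :=
      ⟨hm₃.2.1, V₃.pow_mem hm₃.2.2 q, vt.kron₃.2⟩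
    have h2 : Cong V₃ (j1 E M q) (jq E M q ^ q) :=
      ⟨hm₃.1, V₃.pow_mem hm₃.2.1 q, vt.kron₃.1⟩
    have h3 : Cong V₃ (j1 E M q) ((jqq E M q ^ q) ^ q) := h2.trans (h1.pow q)
    have h4 : Cong V₃ (x3E E M q) ((jqq E M q ^ q) ^ q * jqq E M q ^ q * jqq E M q) :=
      (h3.mul h1).mul (Cong.refl hm₃.2.2)
    have h5 : (jqq E M q ^ q) ^ q * jqq E M q ^ q * jqq E M q =
        jqq E M q ^ (1 + q + q * q) := by ring
    rwa [h5] at h4
  -- images of `j^{±1}` under `γ`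
  have hgA : ∀ k : ℕ, gammaA E M q (jE E M 1 (one_dvd _) ^ k) = j1 E M q ^ k := fun k => by
    rw [map_pow, gammaA_j]
  have hgB : ∀ k : ℕ, gammaB E M q (jE E M 1 (one_dvd _) ^ k) = jqq E M q ^ k := fun k => by
    rw [map_pow, gammaB_j]
  have hgAi : ∀ k : ℕ, gammaA E M q ((jE E M 1 (one_dvd _))⁻¹ ^ k) = (j1 E M q ^ k)⁻¹ :=
    fun k => by rw [map_pow, map_inv₀, gammaA_j, inv_pow]
  have hgBi : ∀ k : ℕ, gammaB E M q ((jE E M 1 (one_dvd _))⁻¹ ^ k) = (jqq E M q ^ k)⁻¹ :=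
    fun k => by rw [map_pow, map_inv₀, gammaB_j, inv_pow]
  have hpi : ∀ (V : ValuationSubring (FE E (M * q * q))) (c : FE E (M * q * q)) (k : ℕ),
      c⁻¹ ∈ V → (c ^ k)⁻¹ ∈ V := fun V c k hc => by
    rw [← inv_pow]
    exact V.pow_mem hc k
  exact
    { normal_f₁ := normalAlong_side3 P E M (M * q * q) w hdvr hw VM hVM V₁ sh.base₁ hw₁
        (gammaA E M q) hγV₁ hres₁ _ (x3E E M q) (1 + q + q * q) hjM val.x_unit₁.2.1
        (by rw [hgA]; exact hc₁.val_lt)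
        (by rw [gammaA_j]; exact H189.j1_mem_chart P E M q hq) hgood.1
      normal_f₂ := normalAlong_side3 P E M (M * q * q) w hdvr hw VM hVM V₂ sh.base₂ hw₂
        (gammaA E M q) hγV₂ hres₂ _ (x3E E M q) (q + 2) hjM val.x_unit₂.2.1
        (by rw [hgA]; exact hc₂.val_lt)
        (by rw [gammaA_j]; exact H189.j1_mem_chart P E M q hq) hgood.1
      normal_f₃ := normalAlong_side3 P E M (M * q * q) w hdvr hw VM hVM V₃ sh.base₃ hw₃
        (gammaB E M q) hγV₃ hres₃ _ (x3E E M q) (1 + q + q * q) hjM val.x_unit₃.2.1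
        (by rw [hgB]; exact hc₃.val_lt)
        (by rw [gammaB_j]; exact H189.jqq_mem_chart' P E M q hq) hgood.1
      normal_i₁ := normalAlong_side3 P E M (M * q * q) w hdvr hw VM hVM V₁ sh.base₁ hw₁
        (gammaA E M q) hγV₁ hres₁ _ (x3E E M q)⁻¹ (1 + q + q * q) hjMi val.x_unit₁.2.2
        (by rw [hgAi]; exact (hc₁.inv val.x_unit₁.2.2 (hpi V₁ _ _ hi₁.1)).val_lt)
        (by rw [map_inv₀, gammaA_j]; exact H189.j1_inv_mem_chart P E M q hq) hgood.2
      normal_i₂ := normalAlong_side3 P E M (M * q * q) w hdvr hw VM hVM V₂ sh.base₂ hw₂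
        (gammaA E M q) hγV₂ hres₂ _ (x3E E M q)⁻¹ (q + 2) hjMi val.x_unit₂.2.2
        (by rw [hgAi]; exact (hc₂.inv val.x_unit₂.2.2 (hpi V₂ _ _ hi₂.1)).val_lt)
        (by rw [map_inv₀, gammaA_j]; exact H189.j1_inv_mem_chart P E M q hq) hgood.2
      normal_i₃ := normalAlong_side3 P E M (M * q * q) w hdvr hw VM hVM V₃ sh.base₃ hw₃
        (gammaB E M q) hγV₃ hres₃ _ (x3E E M q)⁻¹ (1 + q + q * q) hjMi val.x_unit₃.2.2
        (by rw [hgBi]; exact (hc₃.inv val.x_unit₃.2.2 (hpi V₃ _ _ hi₃.2.2)).val_lt)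
        (by rw [map_inv₀, gammaB_j]; exact H189.jqq_inv_mem_chart' P E M q hq) hgood.2 }

end Main

end Fermat.Agent.S36.Mod3.H756

end
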